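import Fermat.Agent.S36.Mod3.H323.UniqFields

/-!
# S36 / MOD3, leaf INC — the field `incidence` of `Eng.TripleCtx` from other fields (helper323)

Generic setting of `Eng.TripleCtx`.  A closed point of the finite chart lying on two of the three
components lies on all three.  Route: going-up for the integral extension `γ (B') ⊆ B` produces a
closed point on the missing component over the same point of level `q M'`; the uniqueness over a
radicial component (`unique_of_radicial_h323`) identifies it with the given point.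
-/

set_option autoImplicit false
set_option linter.style.haveILetI false
set_option linter.unusedSectionVars false

noncomputable section

namespace Fermat.Agent.S36.Mod3.H323

open Polynomial
open Fermat.Agent.S18.H138 (chart)
open Fermat.Agent.S36.Eng

section VPrime

variable {R F : Type*} [CommRing R] [Field F] [Algebra R F]

/-- The vertical prime `B ∩ 𝔪_V` of a subalgebra `B ⊆ V`. -/
def vprime_h323 (B : Subalgebra R F) (V : ValuationSubring F) (hBV : ∀ b ∈ B, b ∈ V) :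
    Ideal B :=
  Ideal.comap ((B.subtype : B →+* F).codRestrict V.toSubring (fun b => hBV b b.2))
    (IsLocalRing.maximalIdeal V)

theorem mem_vprime_h323 (B : Subalgebra R F) (V : ValuationSubring F)
    (hBV : ∀ b ∈ B, b ∈ V) (b : B) :
    b ∈ vprime_h323 B V hBV ↔ (b : F) ∈ V.nonunits := by
  rw [ValuationSubring.mem_nonunits_iff_exists_mem_maximalIdeal]
  constructor
  · intro h
    exact ⟨hBV b b.2, h⟩
  · rintro ⟨_, h⟩
    exact h

end VPrime

section Through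

variable {R E F F' : Type*} [CommRing R] [Field E] [Algebra R E]
  [Field F] [Algebra E F] [Algebra R F] [Field F'] [Algebra E F'] [Algebra R F']

/-- **Incidence over a radicial component (abstract).**  In the setting of
`unique_of_radicial_h323`: if the closed point `𝔪` lies on the radicial component `Vr` and on a
component `Vy`, and `Vx` lies over the same component of level `q M'` as `Vy`, then `𝔪` lies on
`Vx`. -/
theorem through_of_radicial_h323 (w : R) (q : ℕ) (hq : 0 < q) (γ : F' →ₐ[E] F) (x : F) (x' : F')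
    (Va Vb Vr : ValuationSubring F) (Vr' Vo' : ValuationSubring F')
    (hγ : ∀ b ∈ chart R ({x'} : Set F'), γ b ∈ chart R ({x} : Set F))
    (hint : ∀ b ∈ chart R ({x} : Set F), ∃ p : Polynomial F', p.Monic ∧
      (∀ i, p.coeff i ∈ chart R ({x'} : Set F')) ∧ (p.map (γ : F' →+* F)).eval b = 0)
    (hBr : ∀ b ∈ chart R ({x} : Set F), b ∈ Vr)
    (comap_r : Vr.comap (γ : F' →+* F) = Vr')
    (comap_a : Va.comap (γ : F' →+* F) = Vo')
    (comap_b : Vb.comap (γ : F' →+* F) = Vo')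
    (hne : ∃ b' ∈ chart R ({x'} : Set F'), b' ∈ Vo'.nonunits ∧ b' ∉ Vr'.nonunits)
    (hwr : algebraMap R F w ∈ Vr.nonunits)
    (hγw : γ (algebraMap R F' w) = algebraMap R F w)
    (cover : ∀ Q : Ideal (chart R ({x} : Set F)), Q.IsPrime →
      algebraMap R (chart R ({x} : Set F)) w ∈ Q →
      Through _ Q Va ∨ Through _ Q Vb ∨ Through _ Q Vr)
    (rad : ∀ b ∈ chart R ({x} : Set F), ∃ b' ∈ chart R ({x'} : Set F'),
      b ^ q - γ b' ∈ Vr.nonunits)
    (Vx Vy : ValuationSubring F) (hBx : ∀ b ∈ chart R ({x} : Set F), b ∈ Vx)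
    (hxy : Vx.comap (γ : F' →+* F) = Vy.comap (γ : F' →+* F))
    (𝔪 : Ideal (chart R ({x} : Set F))) (h𝔪 : 𝔪.IsMaximal)
    (hthr : Through _ 𝔪 Vr) (hthy : Through _ 𝔪 Vy) :
    Through _ 𝔪 Vx := by
  classical
  let a : chart R ({x'} : Set F') →+* chart R ({x} : Set F) := chartHom_h323 γ x x' hγ
  have haint : a.IsIntegral := chartHom_h323_isIntegral γ x x' hγ hint
  letI : Algebra (chart R ({x'} : Set F')) (chart R ({x} : Set F)) := a.toAlgebra
  haveI : Algebra.IsIntegral (chart R ({x'} : Set F')) (chart R ({x} : Set F)) := ⟨haint⟩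
  haveI : 𝔪.IsPrime := h𝔪.isPrime
  haveI : (𝔪.comap a).IsPrime := Ideal.comap_isPrime a 𝔪
  -- the vertical prime of `Vx` contracts into the contraction of `𝔪`
  have hle : (vprime_h323 (chart R ({x} : Set F)) Vx hBx).comap
      (algebraMap (chart R ({x'} : Set F')) (chart R ({x} : Set F))) ≤ 𝔪.comap a := by
    intro b' hb'
    rw [Ideal.mem_comap] at hb' ⊢
    have h1 : γ (b' : F') ∈ Vx.nonunits := (mem_vprime_h323 _ Vx hBx _).1 hb'
    have h2 : (b' : F') ∈ (Vx.comap (γ : F' →+* F)).nonunits :=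
      (mem_nonunits_comap_h323 _ _).2 h1
    rw [hxy] at h2
    exact hthy _ ((mem_nonunits_comap_h323 _ _).1 h2)
  obtain ⟨Q, hQge, hQprime, hQcomap⟩ :=
    Ideal.exists_ideal_over_prime_of_isIntegral (𝔪.comap a)
      (vprime_h323 (chart R ({x} : Set F)) Vx hBx) hle
  have hmaxc : (𝔪.comap a).IsMaximal :=
    Ideal.isMaximal_comap_of_isIntegral_of_isMaximal' a haint 𝔪
  have hQmax : Q.IsMaximal := by
    haveI := hQprime
    apply Ideal.isMaximal_of_isIntegral_of_isMaximal_comap' a haint Q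
    have : Q.comap a = 𝔪.comap a := hQcomap
    rw [this]
    exact hmaxc
  have hQ𝔪 : Q = 𝔪 := by
    refine unique_of_radicial_h323 w q hq γ x x' Va Vb Vr Vr' Vo' hγ hint hBr comap_r comap_a
      comap_b hne hwr hγw cover rad 𝔪 Q h𝔪 hQmax hthr ?_
    intro b' hb' hmem
    have h1 : (⟨b', hb'⟩ : chart R ({x'} : Set F')) ∈ 𝔪.comap a := hmem
    have h2 : (⟨b', hb'⟩ : chart R ({x'} : Set F')) ∈ Q.comap a := by
      have : Q.comap a = 𝔪.comap a := hQcomap
      rw [this]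
      exact h1
    exact h2
  intro b hb
  rw [← hQ𝔪]
  exact hQge ((mem_vprime_h323 _ Vx hBx b).2 hb)

end Through

section Fields

variable {R E F F' : Type*} [CommRing R] [Field E] [Algebra R E]
  [Field F] [Algebra E F] [Algebra R F] [IsScalarTower R E F]
  [Field F'] [Algebra E F'] [Algebra R F'] [IsScalarTower R E F']

/-- **`incidence`** (field of `Eng.TripleCtx`). -/
theorem incidence_h323 (w : R) (q : ℕ) (hq : 0 < q) (α β : F' →ₐ[E] F) (x : F) (x' : F')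
    (V₁ V₂ V₃ : ValuationSubring F) (V₁' V₂' : ValuationSubring F')
    (base₁ : ∀ r : R, algebraMap R F r ∈ V₁)
    (base₂ : ∀ r : R, algebraMap R F r ∈ V₂)
    (base₃ : ∀ r : R, algebraMap R F r ∈ V₃)
    (x_unit₁ : UnitAt V₁ x) (x_unit₂ : UnitAt V₂ x) (x_unit₃ : UnitAt V₃ x)
    (unif₁ : UnifAt V₁ (algebraMap R F w)) (unif₃ : UnifAt V₃ (algebraMap R F w))
    (ram₂ : ∃ t : F, UnifAt V₂ t ∧ UnitAt V₂ (algebraMap R F w * (t ^ (q - 1))⁻¹))
    (qep_f : Qep3 w (chart R ({x} : Set F)) V₁ V₂ V₃)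
    (comap_α₁ : V₁.comap (α : F' →+* F) = V₁')
    (comap_α₂ : V₂.comap (α : F' →+* F) = V₁')
    (comap_α₃ : V₃.comap (α : F' →+* F) = V₂')
    (comap_β₁ : V₁.comap (β : F' →+* F) = V₁')
    (comap_β₂ : V₂.comap (β : F' →+* F) = V₂')
    (comap_β₃ : V₃.comap (β : F' →+* F) = V₂')
    (chart_α : ∀ b ∈ chart R ({x'} : Set F'), α b ∈ chart R ({x} : Set F))
    (chart_β : ∀ b ∈ chart R ({x'} : Set F'), β b ∈ chart R ({x} : Set F))
    (int_α : ∀ b ∈ chart R ({x} : Set F), ∃ p : Polynomial F', p.Monic ∧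
      (∀ i, p.coeff i ∈ chart R ({x'} : Set F')) ∧ (p.map (α : F' →+* F)).eval b = 0)
    (int_β : ∀ b ∈ chart R ({x} : Set F), ∃ p : Polynomial F', p.Monic ∧
      (∀ i, p.coeff i ∈ chart R ({x'} : Set F')) ∧ (p.map (β : F' →+* F)).eval b = 0)
    (nr_α₂ : ∀ y : F, UnitAt V₃ y → α (S29.H395.normAlong α y) - y ^ q ∈ V₃.nonunits)
    (nr_β₂ : ∀ y : F, UnitAt V₁ y → β (S29.H395.normAlong β y) - y ^ q ∈ V₁.nonunits)
    (hne₁ : ∃ b' ∈ chart R ({x'} : Set F'), b' ∈ V₁'.nonunits ∧ b' ∉ V₂'.nonunits)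
    (hne₂ : ∃ b' ∈ chart R ({x'} : Set F'), b' ∈ V₂'.nonunits ∧ b' ∉ V₁'.nonunits) :
    ∀ 𝔪 : Ideal (chart R ({x} : Set F)), 𝔪.IsMaximal →
      (Through _ 𝔪 V₁ ∧ Through _ 𝔪 V₂) ∨ (Through _ 𝔪 V₁ ∧ Through _ 𝔪 V₃) ∨
        (Through _ 𝔪 V₂ ∧ Through _ 𝔪 V₃) → IsTriple _ 𝔪 V₁ V₂ V₃ := by
  intro 𝔪 h𝔪 h
  have hB₁ : ∀ b ∈ chart R ({x} : Set F), b ∈ V₁ := fun b hb =>
    chart_le_h323 V₁ base₁ x_unit₁.2.1 hb
  have hB₂ : ∀ b ∈ chart R ({x} : Set F), b ∈ V₂ := fun b hb =>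
    chart_le_h323 V₂ base₂ x_unit₂.2.1 hb
  have hB₃ : ∀ b ∈ chart R ({x} : Set F), b ∈ V₃ := fun b hb =>
    chart_le_h323 V₃ base₃ x_unit₃.2.1 hb
  have cov := fun (Q : Ideal (chart R ({x} : Set F))) (hQ : Q.IsPrime)
      (hw : algebraMap R (chart R ({x} : Set F)) w ∈ Q) =>
    cover_h323 w q x V₁ V₂ V₃ hB₁ hB₂ hB₃ unif₁ unif₃ ram₂ qep_f Q hQ hw
  -- via `α`, radicial component `V₃`
  have viaα : ∀ Vx Vy : ValuationSubring F, (∀ b ∈ chart R ({x} : Set F), b ∈ Vx) →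
      Vx.comap (α : F' →+* F) = Vy.comap (α : F' →+* F) →
      Through _ 𝔪 V₃ → Through _ 𝔪 Vy → Through _ 𝔪 Vx := fun Vx Vy hBx hxy h3 hy =>
    through_of_radicial_h323 w q hq α x x' V₁ V₂ V₃ V₂' V₁' chart_α int_α hB₃ comap_α₃ comap_α₁
      comap_α₂ hne₁ unif₃.2.1 (algHom_algebraMap_h323 α w) cov
      (rad_of_nr_h323 q hq α x x' V₃ int_α hB₃ nr_α₂) Vx Vy hBx hxy 𝔪 h𝔪 h3 hy
  -- via `β`, radicial component `V₁`
  have viaβ : ∀ Vx Vy : ValuationSubring F, (∀ b ∈ chart R ({x} : Set F), b ∈ Vx) →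
      Vx.comap (β : F' →+* F) = Vy.comap (β : F' →+* F) →
      Through _ 𝔪 V₁ → Through _ 𝔪 Vy → Through _ 𝔪 Vx := fun Vx Vy hBx hxy h1 hy =>
    through_of_radicial_h323 w q hq β x x' V₂ V₃ V₁ V₁' V₂' chart_β int_β hB₁ comap_β₁ comap_β₂
      comap_β₃ hne₂ unif₁.2.1 (algHom_algebraMap_h323 β w)
      (fun Q hQ hw => by
        rcases cov Q hQ hw with h | h | h
        · exact Or.inr (Or.inr h)
        · exact Or.inl h
        · exact Or.inr (Or.inl h))
      (rad_of_nr_h323 q hq β x x' V₁ int_β hB₁ nr_β₂) Vx Vy hBx hxy 𝔪 h𝔪 h1 hy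
  rcases h with ⟨h1, h2⟩ | ⟨h1, h3⟩ | ⟨h2, h3⟩
  · exact ⟨h1, h2, viaβ V₃ V₂ hB₃ (comap_β₃.trans comap_β₂.symm) h1 h2⟩
  · exact ⟨h1, viaα V₂ V₁ hB₂ (comap_α₂.trans comap_α₁.symm) h3 h1, h3⟩
  · exact ⟨viaα V₁ V₂ hB₁ (comap_α₁.trans comap_α₂.symm) h3 h2, h2, h3⟩

end Fields

end Fermat.Agent.S36.Mod3.H323

end
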