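import Fermat.Agent.S36.Eng.Spec

/-!
# S36 / MOD3, leaf UNIQ — abstract derivation from the other fields (helper323)

Generic setting of `Eng.TripleCtx` (`R`, `E`, `F`, `F'`, charts `B = chart R {x}`,
`B' = chart R {x'}`).  We prove the fields `unique_α`, `unique_β` of `Eng.TripleCtx`
from fields that are proved elsewhere (`base_i`, `x_unit_i`, `unif₁`, `unif₃`, `ram₂`, `qep_f`,
the `comap` table, `chart_α/β`, `int_α/β`) together with

* a *radicial* congruence on the chart (`b ^ q ≡ γ b'` modulo the radicial component), and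
* an element of the chart of level `q M'` separating the two components of that level.

Route: going-down for the integral extension `γ (B') ⊆ B` of the normal domain `B'`
(Mathlib), the cover `p₁ p₂^(q-1) p₃ ⊆ w B` (from `Qep3`), and the radicial congruence.
-/

set_option autoImplicit false
set_option linter.style.haveILetI false
set_option linter.unusedSectionVars false

noncomputable section

namespace Fermat.Agent.S36.Mod3.H323

open Polynomial
open Fermat.Agent.S18.H138 (chart)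
open Fermat.Agent.S36.Eng

/-! ## Valuation subrings and charts -/

section Basic

variable {R F : Type*} [CommRing R] [Field F] [Algebra R F]

/-- `R[x] ⊆ V` as soon as `R ⊆ V` and `x ∈ V`. -/
theorem adjoin_le_h323 {x : F} (V : ValuationSubring F)
    (hRV : ∀ r : R, algebraMap R F r ∈ V) (hxV : x ∈ V) :
    ∀ a ∈ Algebra.adjoin R ({x} : Set F), a ∈ V := by
  intro a ha
  induction ha using Algebra.adjoin_induction with
  | mem y hy =>
    rw [Set.mem_singleton_iff.mp hy]
    exact hxV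
  | algebraMap r => exact hRV r
  | add y z _ _ hy hz => exact V.add_mem _ _ hy hz
  | mul y z _ _ hy hz => exact V.mul_mem _ _ hy hz

/-- The chart of `x` is contained in every valuation ring containing `R` and `x`. -/
theorem chart_le_h323 {x : F} (V : ValuationSubring F)
    (hRV : ∀ r : R, algebraMap R F r ∈ V) (hxV : x ∈ V) {f : F}
    (hf : f ∈ chart R ({x} : Set F)) : f ∈ V := by
  rw [Fermat.Agent.S18.H138.mem_chart] at hf
  let i : Algebra.adjoin R ({x} : Set F) →+* V :=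
    (algebraMap (Algebra.adjoin R ({x} : Set F)) F).codRestrict V.toSubring
      (fun a => adjoin_le_h323 V hRV hxV a a.2)
  have hi : (algebraMap V F).comp i = algebraMap (Algebra.adjoin R ({x} : Set F)) F := by
    ext a; rfl
  have hint : IsIntegral V f := by
    obtain ⟨p, hp, hpf⟩ := hf
    refine ⟨p.map i, hp.map i, ?_⟩
    rw [Polynomial.eval₂_map, hi]
    exact hpf
  obtain ⟨y, hy⟩ := (IsIntegrallyClosed.isIntegral_iff (R := V) (K := F)).1 hint
  rw [← hy]
  exact y.2

/-- A nonzero element is a nonunit of `V` iff its inverse is not in `V`. -/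
theorem mem_nonunits_iff_h323 (V : ValuationSubring F) {a : F} (ha : a ≠ 0) :
    a ∈ V.nonunits ↔ a⁻¹ ∉ V := by
  rw [ValuationSubring.mem_nonunits_iff, ← ValuationSubring.valuation_le_one_iff, map_inv₀,
    not_le]
  have h0 : (0 : ValuationSubring.ValueGroup V) < V.valuation a :=
    zero_lt_iff.mpr ((map_ne_zero V.valuation).mpr ha)
  constructor
  · intro h
    exact (one_lt_inv₀ h0).mpr h
  · intro h
    exact (one_lt_inv₀ h0).mp h

theorem zero_mem_nonunits_h323 (V : ValuationSubring F) : (0 : F) ∈ V.nonunits := by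
  rw [ValuationSubring.mem_nonunits_iff, map_zero]
  exact zero_lt_one

/-- Nonunits of a comap. -/
theorem mem_nonunits_comap_h323 {F' : Type*} [Field F'] (γ : F' →+* F)
    (V : ValuationSubring F) {b : F'} :
    b ∈ (V.comap γ).nonunits ↔ γ b ∈ V.nonunits := by
  by_cases hb : b = 0
  · subst hb
    rw [map_zero]
    exact ⟨fun _ => zero_mem_nonunits_h323 V, fun _ => zero_mem_nonunits_h323 _⟩
  · have hγb : γ b ≠ 0 := (map_ne_zero γ).mpr hb
    rw [mem_nonunits_iff_h323 _ hb, mem_nonunits_iff_h323 _ hγb, ValuationSubring.mem_comap,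
      map_inv₀]

/-- The chart is integrally closed in `F`. -/
theorem isIntegral_chart_h323 {S : Set F} {f : F} (hf : IsIntegral (chart R S) f) :
    f ∈ chart R S := by
  rw [Fermat.Agent.S18.H138.mem_chart]
  have h1 : IsIntegral (integralClosure (Algebra.adjoin R S) F) f := hf
  exact isIntegral_trans (A := integralClosure (Algebra.adjoin R S) F) f h1

end Basic

/-! ## The cover `p₁ p₂^(q-1) p₃ ⊆ w B` -/

section Cover

variable {R F : Type*} [CommRing R] [Field F] [Algebra R F]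

/-- **Cover.**  A prime of the chart containing `w` contains one of the three vertical primes. -/
theorem cover_h323 (w : R) (q : ℕ) (x : F) (V₁ V₂ V₃ : ValuationSubring F)
    (hB₁ : ∀ b ∈ chart R ({x} : Set F), b ∈ V₁)
    (hB₂ : ∀ b ∈ chart R ({x} : Set F), b ∈ V₂)
    (hB₃ : ∀ b ∈ chart R ({x} : Set F), b ∈ V₃)
    (unif₁ : UnifAt V₁ (algebraMap R F w)) (unif₃ : UnifAt V₃ (algebraMap R F w))
    (ram₂ : ∃ t : F, UnifAt V₂ t ∧ UnitAt V₂ (algebraMap R F w * (t ^ (q - 1))⁻¹))
    (qep : Qep3 w (chart R ({x} : Set F)) V₁ V₂ V₃)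
    (Q : Ideal (chart R ({x} : Set F))) (hQ : Q.IsPrime)
    (hw : algebraMap R (chart R ({x} : Set F)) w ∈ Q) :
    Through _ Q V₁ ∨ Through _ Q V₂ ∨ Through _ Q V₃ := by
  by_contra hcon
  simp only [Through, not_or, not_forall] at hcon
  obtain ⟨⟨b₁, hb₁, hb₁Q⟩, ⟨b₂, hb₂, hb₂Q⟩, ⟨b₃, hb₃, hb₃Q⟩⟩ := hcon
  obtain ⟨t, ht, hu⟩ := ram₂
  set W : F := algebraMap R F w with hW
  -- the product
  have h1 : ((b₁ * b₂ ^ (q - 1) * b₃ : chart R ({x} : Set F)) : F) * W⁻¹ ∈ V₁ := by
    have e : ((b₁ * b₂ ^ (q - 1) * b₃ : chart R ({x} : Set F)) : F) * W⁻¹ =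
        ((b₁ : F) * W⁻¹) * ((b₂ : F) ^ (q - 1) * (b₃ : F)) := by
      push_cast
      ring
    rw [e]
    exact V₁.mul_mem _ _ (unif₁.2.2 _ hb₁)
      (V₁.mul_mem _ _ (pow_mem (hB₁ _ b₂.2) _) (hB₁ _ b₃.2))
  have h3 : ((b₁ * b₂ ^ (q - 1) * b₃ : chart R ({x} : Set F)) : F) * W⁻¹ ∈ V₃ := by
    have e : ((b₁ * b₂ ^ (q - 1) * b₃ : chart R ({x} : Set F)) : F) * W⁻¹ =
        ((b₃ : F) * W⁻¹) * ((b₂ : F) ^ (q - 1) * (b₁ : F)) := by
      push_cast
      ring
    rw [e]
    exact V₃.mul_mem _ _ (unif₃.2.2 _ hb₃)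
      (V₃.mul_mem _ _ (pow_mem (hB₃ _ b₂.2) _) (hB₃ _ b₁.2))
  have h2 : ((b₁ * b₂ ^ (q - 1) * b₃ : chart R ({x} : Set F)) : F) * W⁻¹ ∈ V₂ := by
    have ht0 : t ≠ 0 := ht.1
    have hW0 : W ≠ 0 := unif₁.1
    have e : ((b₁ * b₂ ^ (q - 1) * b₃ : chart R ({x} : Set F)) : F) * W⁻¹ =
        ((b₂ : F) * t⁻¹) ^ (q - 1) * (W * (t ^ (q - 1))⁻¹)⁻¹ * ((b₁ : F) * (b₃ : F)) := by
      push_cast
      rw [mul_pow, mul_inv, inv_inv, inv_pow]
      have ht1 : t ^ (q - 1) ≠ 0 := pow_ne_zero _ ht0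
      field_simp
    rw [e]
    exact V₂.mul_mem _ _ (V₂.mul_mem _ _ (pow_mem (ht.2.2 _ hb₂) _) hu.2.2)
      (V₂.mul_mem _ _ (hB₂ _ b₁.2) (hB₂ _ b₃.2))
  obtain ⟨c, hc⟩ := qep (b₁ * b₂ ^ (q - 1) * b₃) h1 h2 h3
  have hmem : b₁ * b₂ ^ (q - 1) * b₃ ∈ Q := by
    rw [hc]
    exact Q.mul_mem_right _ hw
  rcases hQ.mem_or_mem hmem with h | h
  · rcases hQ.mem_or_mem h with h | h
    · exact hb₁Q h
    · exact hb₂Q (hQ.mem_of_pow_mem _ h)
  · exact hb₃Q h

end Cover

/-! ## The restriction of a degeneracy map to the charts -/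

section ChartHom

variable {R E F F' : Type*} [CommRing R] [Field E] [Algebra R E]
  [Field F] [Algebra E F] [Algebra R F] [Field F'] [Algebra E F'] [Algebra R F']

/-- The restriction of `γ` to the charts. -/
def chartHom_h323 (γ : F' →ₐ[E] F) (x : F) (x' : F')
    (hγ : ∀ b ∈ chart R ({x'} : Set F'), γ b ∈ chart R ({x} : Set F)) :
    chart R ({x'} : Set F') →+* chart R ({x} : Set F) where
  toFun b := ⟨γ b, hγ b b.2⟩
  map_one' := Subtype.ext (map_one γ)
  map_mul' a b := Subtype.ext (map_mul γ (a : F') (b : F'))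
  map_zero' := Subtype.ext (map_zero γ)
  map_add' a b := Subtype.ext (map_add γ (a : F') (b : F'))

@[simp] theorem chartHom_h323_coe (γ : F' →ₐ[E] F) (x : F) (x' : F')
    (hγ : ∀ b ∈ chart R ({x'} : Set F'), γ b ∈ chart R ({x} : Set F))
    (b : chart R ({x'} : Set F')) :
    ((chartHom_h323 γ x x' hγ b : chart R ({x} : Set F)) : F) = γ b := rfl

theorem chartHom_h323_injective (γ : F' →ₐ[E] F) (x : F) (x' : F')
    (hγ : ∀ b ∈ chart R ({x'} : Set F'), γ b ∈ chart R ({x} : Set F)) :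
    Function.Injective (chartHom_h323 γ x x' hγ) := by
  intro a b hab
  have h : γ (a : F') = γ (b : F') := congrArg (fun t : chart R ({x} : Set F) => (t : F)) hab
  exact Subtype.ext ((γ : F' →+* F).injective h)

theorem chartHom_h323_isIntegral (γ : F' →ₐ[E] F) (x : F) (x' : F')
    (hγ : ∀ b ∈ chart R ({x'} : Set F'), γ b ∈ chart R ({x} : Set F))
    (hint : ∀ b ∈ chart R ({x} : Set F), ∃ p : Polynomial F', p.Monic ∧
      (∀ i, p.coeff i ∈ chart R ({x'} : Set F')) ∧ (p.map (γ : F' →+* F)).eval b = 0) :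
    (chartHom_h323 γ x x' hγ).IsIntegral := by
  intro b
  obtain ⟨p, hp, hcoef, hev⟩ := hint b b.2
  have hl : p ∈ Polynomial.lifts ((chart R ({x'} : Set F')).subtype : _ →+* F') := by
    rw [Polynomial.lifts_iff_coeff_lifts]
    intro n
    exact ⟨⟨p.coeff n, hcoef n⟩, rfl⟩
  obtain ⟨p', hp'map, -, hp'⟩ := Polynomial.lifts_and_natDegree_eq_and_monic hl hp
  refine ⟨p', hp', ?_⟩
  apply Subtype.ext
  have h1 : (((chart R ({x} : Set F)).subtype : _ →+* F))
      (Polynomial.eval₂ (chartHom_h323 γ x x' hγ) b p') =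
      Polynomial.eval₂ (((chart R ({x} : Set F)).subtype : _ →+* F).comp
        (chartHom_h323 γ x x' hγ)) (b : F) p' :=
    Polynomial.hom_eval₂ p' (chartHom_h323 γ x x' hγ) _ b
  have h2 : (((chart R ({x} : Set F)).subtype : _ →+* F)).comp (chartHom_h323 γ x x' hγ) =
      (γ : F' →+* F).comp ((chart R ({x'} : Set F')).subtype : _ →+* F') := by
    ext a
    rfl
  have h3 : Polynomial.eval₂ ((γ : F' →+* F).comp
      ((chart R ({x'} : Set F')).subtype : _ →+* F')) (b : F) p' =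
      (p.map (γ : F' →+* F)).eval (b : F) := by
    rw [← hp'map, Polynomial.map_map, Polynomial.eval_map]
  change (((chart R ({x} : Set F)).subtype : _ →+* F))
      (Polynomial.eval₂ (chartHom_h323 γ x x' hγ) b p') = 0
  rw [h1, h2, h3, hev]

/-- The chart is an integrally closed domain. -/
theorem isIntegrallyClosed_chart_h323 (S : Set F) : IsIntegrallyClosed (chart R S) := by
  haveI : IsIntegrallyClosedIn (chart R S) F := by
    rw [isIntegrallyClosedIn_iff]
    refine ⟨Subtype.val_injective, fun {f} hf => ?_⟩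
    exact ⟨⟨f, isIntegral_chart_h323 hf⟩, rfl⟩
  exact IsIntegrallyClosed.of_isIntegrallyClosed_of_isIntegrallyClosedIn (chart R S) F

end ChartHom

/-! ## Uniqueness over a radicial component -/

section Unique

variable {R E F F' : Type*} [CommRing R] [Field E] [Algebra R E]
  [Field F] [Algebra E F] [Algebra R F] [Field F'] [Algebra E F'] [Algebra R F']

/-- **Uniqueness over a radicial component (abstract).**  `γ : F' → F` maps the chart `B'` into
the chart `B`, `B` is integral over `γ B'`; `Vr` lies over `Vr'`, the two other components `Va`,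
`Vb` lie over `Vo'`; some element of `B'` vanishes on `Vo'` but not on `Vr'`; every prime of `B`
containing `w` contains one of the three vertical primes; `B / (B ∩ 𝔪_{Vr})` is radicial over
`γ B'`.  Then a closed point of `B` on `Vr` is the only closed point over its image. -/
theorem unique_of_radicial_h323 (w : R) (q : ℕ) (hq : 0 < q) (γ : F' →ₐ[E] F) (x : F) (x' : F')
    (Va Vb Vr : ValuationSubring F) (Vr' Vo' : ValuationSubring F')
    (hγ : ∀ b ∈ chart R ({x'} : Set F'), γ b ∈ chart R ({x} : Set F))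
    (hint : ∀ b ∈ chart R ({x} : Set F), ∃ p : Polynomial F', p.Monic ∧
      (∀ i, p.coeff i ∈ chart R ({x'} : Set F')) ∧ (p.map (γ : F' →+* F)).eval b = 0)
    (hBr : ∀ b ∈ chart R ({x} : Set F), b ∈ Vr)
    (comap_r : Vr.comap (γ : F' →+* F) = Vr')
    (comap_a : Va.comap (γ : F' →+* F) = Vo')
    (comap_b : Vb.comap (γ : F' →+* F) = Vo')
    (hne : ∃ b' ∈ chart R ({x'} : Set F'), b' ∈ Vo'.nonunits ∧ b' ∉ Vr'.nonunits)
    (hwr : algebraMap R F w ∈ Vr.nonunits)
    (hγw : γ (algebraMap R F' w) = algebraMap R F w)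
    (cover : ∀ Q : Ideal (chart R ({x} : Set F)), Q.IsPrime →
      algebraMap R (chart R ({x} : Set F)) w ∈ Q →
      Through _ Q Va ∨ Through _ Q Vb ∨ Through _ Q Vr)
    (rad : ∀ b ∈ chart R ({x} : Set F), ∃ b' ∈ chart R ({x'} : Set F'),
      b ^ q - γ b' ∈ Vr.nonunits)
    (𝔪 𝔪' : Ideal (chart R ({x} : Set F))) (h𝔪 : 𝔪.IsMaximal) (h𝔪' : 𝔪'.IsMaximal)
    (hthr : Through _ 𝔪 Vr)
    (H : ∀ (b' : F') (h : b' ∈ chart R ({x'} : Set F')),
      (⟨γ b', hγ b' h⟩ : chart R ({x} : Set F)) ∈ 𝔪 →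
        (⟨γ b', hγ b' h⟩ : chart R ({x} : Set F)) ∈ 𝔪') :
    𝔪' = 𝔪 := by
  classical
  let a : chart R ({x'} : Set F') →+* chart R ({x} : Set F) := chartHom_h323 γ x x' hγ
  -- the chart of level `q M'` lies in `Vr'`
  have hB'r : ∀ b' : chart R ({x'} : Set F'), (b' : F') ∈ Vr' := fun b' => by
    rw [← comap_r, ValuationSubring.mem_comap]
    exact hBr _ (hγ b' b'.2)
  let incl : chart R ({x'} : Set F') →+* Vr' :=
    ((chart R ({x'} : Set F')).subtype : _ →+* F').codRestrict Vr'.toSubring hB'r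
  let P : Ideal (chart R ({x'} : Set F')) := Ideal.comap incl (IsLocalRing.maximalIdeal Vr')
  have hPmem : ∀ b' : chart R ({x'} : Set F'), b' ∈ P ↔ (b' : F') ∈ Vr'.nonunits := by
    intro b'
    rw [ValuationSubring.mem_nonunits_iff_exists_mem_maximalIdeal]
    constructor
    · intro h
      exact ⟨hB'r b', h⟩
    · rintro ⟨_, h⟩
      exact h
  haveI hPprime : P.IsPrime := Ideal.comap_isPrime incl _
  have hnon : ∀ (V : ValuationSubring F) (V' : ValuationSubring F'),
      V.comap (γ : F' →+* F) = V' → ∀ b' : F', b' ∈ V'.nonunits → γ b' ∈ V.nonunits := by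
    intro V V' hVV' b' hb'
    have : b' ∈ (V.comap (γ : F' →+* F)).nonunits := by rw [hVV']; exact hb'
    exact (mem_nonunits_comap_h323 _ _).1 this
  have hP𝔪 : P ≤ 𝔪.comap a := by
    intro b' hb'
    rw [Ideal.mem_comap]
    exact hthr _ (hnon Vr Vr' comap_r _ ((hPmem b').1 hb'))
  have hP𝔪' : P ≤ 𝔪'.comap a := by
    intro b' hb'
    rw [Ideal.mem_comap]
    exact H b' b'.2 (hP𝔪 hb')
  -- going down
  letI : Algebra (chart R ({x'} : Set F')) (chart R ({x} : Set F)) := a.toAlgebra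
  haveI : IsIntegrallyClosed (chart R ({x'} : Set F')) := isIntegrallyClosed_chart_h323 _
  haveI : Algebra.IsIntegral (chart R ({x'} : Set F')) (chart R ({x} : Set F)) :=
    ⟨chartHom_h323_isIntegral γ x x' hγ hint⟩
  haveI : FaithfulSMul (chart R ({x'} : Set F')) (chart R ({x} : Set F)) :=
    (faithfulSMul_iff_algebraMap_injective _ _).mpr (chartHom_h323_injective γ x x' hγ)
  haveI : 𝔪'.IsPrime := h𝔪'.isPrime
  haveI : 𝔪'.LiesOver (𝔪'.comap a) := ⟨rfl⟩
  haveI : (𝔪'.comap a).IsPrime := Ideal.comap_isPrime a 𝔪'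
  obtain ⟨Q, hQ𝔪', hQprime, hQover⟩ :=
    Ideal.exists_ideal_le_liesOver_of_le (p := P) (q := 𝔪'.comap a) 𝔪' hP𝔪'
  have hQP : Q.comap a = P := (hQover.over).symm
  -- `w ∈ Q`
  have hwQ : algebraMap R (chart R ({x} : Set F)) w ∈ Q := by
    have hwP : (⟨algebraMap R F' w, Subalgebra.algebraMap_mem _ w⟩ : chart R ({x'} : Set F')) ∈ P := by
      rw [hPmem]
      have h1 : algebraMap R F' w ∈ (Vr.comap (γ : F' →+* F)).nonunits := by
        rw [mem_nonunits_comap_h323]
        change γ (algebraMap R F' w) ∈ Vr.nonunits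
        rw [hγw]
        exact hwr
      rw [comap_r] at h1
      exact h1
    rw [← hQP, Ideal.mem_comap] at hwP
    have e : a ⟨algebraMap R F' w, Subalgebra.algebraMap_mem _ w⟩ =
        algebraMap R (chart R ({x} : Set F)) w := Subtype.ext hγw
    rw [e] at hwP
    exact hwP
  -- `Q` contains the radicial vertical prime
  have hQr : Through (chart R ({x} : Set F)) Q Vr := by
    obtain ⟨b', hb'B, hb'o, hb'r⟩ := hne
    have key : ∀ V : ValuationSubring F, V.comap (γ : F' →+* F) = Vo' →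
        Through (chart R ({x} : Set F)) Q V → False := by
      intro V hV hthrough
      apply hb'r
      rw [← hPmem ⟨b', hb'B⟩, ← hQP, Ideal.mem_comap]
      exact hthrough _ (hnon V Vo' hV _ hb'o)
    rcases cover Q hQprime hwQ with h | h | h
    · exact (key Va comap_a h).elim
    · exact (key Vb comap_b h).elim
    · exact h
  -- radicial
  have hle : 𝔪 ≤ 𝔪' := by
    intro b hb
    obtain ⟨b', hb'B, hb'⟩ := rad b b.2
    have hcoe : ((b ^ q - a ⟨b', hb'B⟩ : chart R ({x} : Set F)) : F) = (b : F) ^ q - γ b' := by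
      push_cast
      rfl
    have h1 : b ^ q - a ⟨b', hb'B⟩ ∈ 𝔪 := hthr _ (by rw [hcoe]; exact hb')
    have h2 : a ⟨b', hb'B⟩ ∈ 𝔪 := by
      have := 𝔪.sub_mem (𝔪.pow_mem_of_mem hb q hq) h1
      simpa using this
    have h3 : a ⟨b', hb'B⟩ ∈ 𝔪' := H b' hb'B h2
    have h4 : b ^ q - a ⟨b', hb'B⟩ ∈ 𝔪' := hQ𝔪' (hQr _ (by rw [hcoe]; exact hb'))
    have h5 : b ^ q ∈ 𝔪' := by
      have := 𝔪'.add_mem h4 h3
      simpa using this
    exact h𝔪'.isPrime.mem_of_pow_mem q h5
  exact (h𝔪.eq_of_le h𝔪'.ne_top hle).symm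

end Unique

end Fermat.Agent.S36.Mod3.H323

end
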