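import Fermat.Agent.S36.Mod3.Spec
import Fermat.Agent.S36.H438.Unit
import Fermat.Agent.S36.Mod3.H323.UniqAbs

/-!
# S36 / MOD3, leaf UNIQ — the separating elements of level `M q` (helper323)

The modular units `D = q¹² Δ(t^q)/Δ(t)` and `D' = Δ(t)/Δ(t^q)` of helper438 (`S36/H438/Unit.lean`,
`mu_package`) lie in the finite chart of `x' = j j_q`; `D' ` is a unit of `V∞`, `D` is a unit of
`V₀ = V∞ ∘ W`, and `D D' = q¹²`.  Hence `D ∈ 𝔪_{V∞} ∖ 𝔪_{V₀}` and `D' ∈ 𝔪_{V₀} ∖ 𝔪_{V∞}`.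
-/

set_option autoImplicit false
set_option linter.style.haveILetI false
set_option linter.unusedSectionVars false
set_option synthInstance.maxHeartbeats 400000
set_option maxHeartbeats 1600000

noncomputable section

namespace Fermat.Agent.S36.Mod3.H323

open ModularCurve AlgebraicCurve
open Fermat.Agent.S18.H138 (chart)
open Fermat.Agent.S36.Eng

section Sep

variable (P : ValuationSubring A2.Qb) (E : IntermediateField ℚ A2.Qb) (M q : ℕ)
  [NeZero M] [NeZero q] [NeZero (M * q)]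

/-- A unit of a valuation ring is not a nonunit. -/
theorem not_mem_nonunits_of_unit_h323 {F : Type*} [Field F] (V : ValuationSubring F) {a : F}
    (hinv : a⁻¹ ∈ V) (ha0 : a ≠ 0) : a ∉ V.nonunits := by
  rw [mem_nonunits_iff_h323 V ha0]
  exact fun h => h hinv

/-- Positive powers of nonunits are nonunits. -/
theorem pow12_mem_nonunits_h323 {F : Type*} [Field F] (V : ValuationSubring F) {a : F}
    (ha : a ∈ V.nonunits) : a ^ 12 ∈ V.nonunits := by
  rw [ValuationSubring.mem_nonunits_iff] at ha ⊢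
  rw [map_pow]
  exact pow_lt_one₀ (zero_le (a := V.valuation a)) ha (by norm_num)

/-- `nonunit * element = nonunit`. -/
theorem mul_mem_nonunits_h323 {F : Type*} [Field F] (V : ValuationSubring F) {a b : F}
    (ha : a ∈ V.nonunits) (hb : b ∈ V) : a * b ∈ V.nonunits := by
  rw [ValuationSubring.mem_nonunits_iff] at ha ⊢
  rw [map_mul]
  have h1 : V.valuation b ≤ 1 := (V.valuation_le_one_iff b).mpr hb
  calc V.valuation a * V.valuation b ≤ V.valuation a * 1 := by gcongr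
    _ = V.valuation a := mul_one _
    _ < 1 := ha

/-- The constant `q` is a nonunit of `V∞`. -/
theorem q_mem_nonunits_vinf_h323 (hP : P.LiesOverPrime q)
    (hdvr : IsDiscreteValuationRing (A2.RE P E)) (N : ℕ)
    (V : ValuationSubring (A2.Mod.FE E N)) (hV : A2.Mod.IsVinf P E N V) :
    algebraMap E (A2.Mod.FE E N) (q : E) ∈ V.nonunits := by
  haveI := hdvr
  have hq0 : (q : E) ≠ 0 := Nat.cast_ne_zero.mpr (NeZero.ne q)
  have hq0' : algebraMap E (A2.Mod.FE E N) (q : E) ≠ 0 :=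
    (map_ne_zero_iff _ (algebraMap E (A2.Mod.FE E N)).injective).mpr hq0
  have hqQ : ((q : ℕ) : A2.Qb) ≠ 0 := Nat.cast_ne_zero.mpr (NeZero.ne q)
  rw [mem_nonunits_iff_h323 V hq0', ← map_inv₀,
    Fermat.Agent.A2.Mod.H553.algebraMap_mem_iff P E hV]
  intro hmem
  have h1 : algebraMap E A2.Qb ((q : E)⁻¹) ∈ P := hmem
  rw [map_inv₀, map_natCast] at h1
  exact ((mem_nonunits_iff_h323 P hqQ).1 hP) h1

/-- **The separating elements** of the finite chart of level `M q`. -/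
theorem sep_h323 (hq : q.Prime) (hP : P.LiesOverPrime q)
    (hdvr : IsDiscreteValuationRing (A2.RE P E))
    (V₁' V₂' : ValuationSubring (A2.Mod.FE E (M * q)))
    (W' : A2.Mod.FE E (M * q) ≃ₐ[E] A2.Mod.FE E (M * q))
    (hV : A2.Mod.IsVinf P E (M * q) V₁') (hW : A2.Mod.IsFricke E (M * q) W')
    (hV₂ : V₂' = V₁'.comap (W' : A2.Mod.FE E (M * q) →+* A2.Mod.FE E (M * q))) :
    (∃ b' ∈ chart (A2.RE P E) ({A2.Mod.xE E M q} : Set (A2.Mod.FE E (M * q))),
      b' ∈ V₁'.nonunits ∧ b' ∉ V₂'.nonunits) ∧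
    (∃ b' ∈ chart (A2.RE P E) ({A2.Mod.xE E M q} : Set (A2.Mod.FE E (M * q))),
      b' ∈ V₂'.nonunits ∧ b' ∉ V₁'.nonunits) := by
  obtain ⟨D, D', -, -, hDD', hD, hD', hD'u, hDu, -⟩ :=
    Fermat.Agent.S36.H438.mu_package P E M q hq
  obtain ⟨hD'V, hD'inv⟩ := hD'u V₁' hV
  obtain ⟨hDV, hDinv⟩ := hDu V₁' W' hV hW
  rw [← hV₂] at hDV hDinv
  -- the constant `q ^ 12`
  have hc₁ : algebraMap E (A2.Mod.FE E (M * q)) ((q : E) ^ 12) ∈ V₁'.nonunits := by
    rw [map_pow]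
    exact pow12_mem_nonunits_h323 V₁' (q_mem_nonunits_vinf_h323 P E q hP hdvr (M * q) V₁' hV)
  have hc₂ : algebraMap E (A2.Mod.FE E (M * q)) ((q : E) ^ 12) ∈ V₂'.nonunits := by
    rw [hV₂, mem_nonunits_comap_h323]
    have : (W' : A2.Mod.FE E (M * q) →+* A2.Mod.FE E (M * q))
        (algebraMap E (A2.Mod.FE E (M * q)) ((q : E) ^ 12)) =
        algebraMap E (A2.Mod.FE E (M * q)) ((q : E) ^ 12) := W'.commutes _
    rw [this]
    exact hc₁
  have hc0 : algebraMap E (A2.Mod.FE E (M * q)) ((q : E) ^ 12) ≠ 0 :=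
    (map_ne_zero_iff _ (algebraMap E (A2.Mod.FE E (M * q))).injective).mpr
      (pow_ne_zero _ (Nat.cast_ne_zero.mpr (NeZero.ne q)))
  have hD0 : D ≠ 0 := fun h => hc0 (by rw [← hDD', h, zero_mul])
  have hD'0 : D' ≠ 0 := fun h => hc0 (by rw [← hDD', h, mul_zero])
  refine ⟨⟨D, hD, ?_, not_mem_nonunits_of_unit_h323 V₂' hDinv hD0⟩,
    ⟨D', hD', ?_, not_mem_nonunits_of_unit_h323 V₁' hD'inv hD'0⟩⟩
  · have e : D = algebraMap E (A2.Mod.FE E (M * q)) ((q : E) ^ 12) * D'⁻¹ := by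
      rw [← hDD', mul_assoc, mul_inv_cancel₀ hD'0, mul_one]
    rw [e]
    exact mul_mem_nonunits_h323 V₁' hc₁ hD'inv
  · have e : D' = algebraMap E (A2.Mod.FE E (M * q)) ((q : E) ^ 12) * D⁻¹ := by
      rw [← hDD', mul_comm D D', mul_assoc, mul_inv_cancel₀ hD0, mul_one]
    rw [e]
    exact mul_mem_nonunits_h323 V₂' hc₂ hDinv

end Sep

end Fermat.Agent.S36.Mod3.H323

end
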