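import Fermat.Agent.S36.Mod3.Spec
import Fermat.Agent.S36.Mod3.H323.IncAbs
import Fermat.Agent.S36.Mod3.H323.Sep

/-!
# S36 / MOD3 — the field `incidence` of leaf INC from the leaves SHEET, VAL, QEP, TABLE, CHART, NR
(helper323)

* `leafIncidence_of` : the field `incidence` of `PartInc` for the concrete objects;
* `LeafCuspSingle`   : the other field (`cusp_single`) of `PartInc`, as a leaf `Prop`;
* `leafInc_of`       : `LeafSheet → LeafVal → LeafQep → LeafTable → LeafChart → LeafNR →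
                        LeafCuspSingle → LeafInc`.
-/

set_option autoImplicit false
set_option linter.style.haveILetI false
set_option linter.unusedSectionVars false
set_option synthInstance.maxHeartbeats 400000
set_option maxHeartbeats 1600000

noncomputable section

namespace Fermat.Agent.S36.Mod3.H323

open ModularCurve AlgebraicCurve
open Fermat.Agent.S18.H138 (chart)
open Fermat.Agent.S36.Eng
open Fermat.Agent.S36.Mod3

/-- The field `cusp_single` of `PartInc` (VERBATIM), as a leaf. -/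
def LeafCuspSingle : Prop :=
  Leaf fun P E M q _ _ _ w _ _ V₁ V₂ V₃ =>
    ∀ 𝔪 : Ideal (chart (A2.RE P E) ({(x3E E M q)⁻¹} : Set (A2.Mod.FE E (M * q * q)))),
      𝔪.IsMaximal →
      algebraMap (A2.RE P E)
        (chart (A2.RE P E) ({(x3E E M q)⁻¹} : Set (A2.Mod.FE E (M * q * q)))) w ∈ 𝔪 →
      (⟨(x3E E M q)⁻¹, Fermat.Agent.S18.H138.mem_chart_of_mem rfl⟩ :
        chart (A2.RE P E) ({(x3E E M q)⁻¹} : Set (A2.Mod.FE E (M * q * q)))) ∈ 𝔪 →
      ¬ (Through _ 𝔪 V₁ ∧ Through _ 𝔪 V₂) ∧ ¬ (Through _ 𝔪 V₁ ∧ Through _ 𝔪 V₃) ∧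
        ¬ (Through _ 𝔪 V₂ ∧ Through _ 𝔪 V₃)

/-- **The field `incidence` from the other leaves.** -/
theorem leafIncidence_of (hSh : LeafSheet) (hVal : LeafVal) (hQep : LeafQep) (hTab : LeafTable)
    (hCh : LeafChart) (hNR : LeafNR) :
    Leaf fun P E M q _ _ _ _ _ _ V₁ V₂ V₃ =>
      ∀ 𝔪 : Ideal (chart (A2.RE P E) ({x3E E M q} : Set (A2.Mod.FE E (M * q * q)))),
        𝔪.IsMaximal →
        (Through _ 𝔪 V₁ ∧ Through _ 𝔪 V₂) ∨ (Through _ 𝔪 V₁ ∧ Through _ 𝔪 V₃) ∨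
          (Through _ 𝔪 V₂ ∧ Through _ 𝔪 V₃) → IsTriple _ 𝔪 V₁ V₂ V₃ := by
  intro P E M q _ _ _ w hStd V₁' V₂' V₁ V₂ V₃ W' W hObjs
  have sh := hSh P E M q w hStd V₁' V₂' V₁ V₂ V₃ W' W hObjs
  have val := hVal P E M q w hStd V₁' V₂' V₁ V₂ V₃ W' W hObjs
  have qep := hQep P E M q w hStd V₁' V₂' V₁ V₂ V₃ W' W hObjs
  have tab := hTab P E M q w hStd V₁' V₂' V₁ V₂ V₃ W' W hObjs
  have ch := hCh P E M q w hStd V₁' V₂' V₁ V₂ V₃ W' W hObjs
  have nr := hNR P E M q w hStd V₁' V₂' V₁ V₂ V₃ W' W hObjs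
  have hdvr : IsDiscreteValuationRing (A2.RE P E) := hStd.unram.1.dvr
  obtain ⟨hne₁, hne₂⟩ := sep_h323 P E M q hStd.q_prime hStd.lies_over hdvr V₁' V₂' W'
    hObjs.vinf' hObjs.fricke' hObjs.vzero'
  exact incidence_h323 w q hStd.q_prime.pos (A2.Mod.αE E (M * q) q) (A2.Mod.βE E (M * q) q)
    (x3E E M q) (A2.Mod.xE E M q) V₁ V₂ V₃ V₁' V₂' sh.base₁ sh.base₂ sh.base₃
    val.x_unit₁ val.x_unit₂ val.x_unit₃ val.unif₁ val.unif₃ val.ram₂ qep.qep_f
    tab.comap_α₁ tab.comap_α₂ tab.comap_α₃ tab.comap_β₁ tab.comap_β₂ tab.comap_β₃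
    ch.chart_α ch.chart_β ch.int_α ch.int_β nr.nr_α₂ nr.nr_β₂ hne₁ hne₂

/-- **INC from the other leaves and `cusp_single`.** -/
theorem leafInc_of (hSh : LeafSheet) (hVal : LeafVal) (hQep : LeafQep) (hTab : LeafTable)
    (hCh : LeafChart) (hNR : LeafNR) (hCusp : LeafCuspSingle) : LeafInc := by
  intro P E M q _ _ _ w hStd V₁' V₂' V₁ V₂ V₃ W' W hObjs
  exact
    { incidence := leafIncidence_of hSh hVal hQep hTab hCh hNR P E M q w hStd V₁' V₂' V₁ V₂ V₃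
        W' W hObjs
      cusp_single := hCusp P E M q w hStd V₁' V₂' V₁ V₂ V₃ W' W hObjs }

end Fermat.Agent.S36.Mod3.H323

end
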