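import Fermat.Agent.S36.Mod3.H323.UniqAbs

/-!
# S36 / MOD3, leaf UNIQ — the fields `unique_α`, `unique_β` of `Eng.TripleCtx` from other fields
(helper323)

Generic setting of `Eng.TripleCtx`.  Inputs, all VERBATIM fields of `Eng.TripleCtx` (v1.3):
`base_i`, `x_unit_i`, `unif₁`, `unif₃`, `ram₂`, `qep_f`, the six `comap`, `chart_α/β`, `int_α/β`,
`nr_α₂`, `nr_β₂`; plus two separating elements of the chart of level `q M'`
(`∃ b' ∈ B', b' ∈ 𝔪_{V₁'} ∖ 𝔪_{V₂'}` and `∃ b' ∈ B', b' ∈ 𝔪_{V₂'} ∖ 𝔪_{V₁'}`: the modular units).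
-/

set_option autoImplicit false
set_option linter.style.haveILetI false
set_option linter.unusedSectionVars false

noncomputable section

namespace Fermat.Agent.S36.Mod3.H323

open Polynomial
open Fermat.Agent.S18.H138 (chart)
open Fermat.Agent.S36.Eng

section Rad

variable {R E F F' : Type*} [CommRing R] [Field E] [Algebra R E]
  [Field F] [Algebra E F] [Algebra R F] [Field F'] [Algebra E F'] [Algebra R F']

/-- The norm of an element of the chart `B` is an element of the chart `B'`. -/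
theorem normAlong_mem_chart_h323 (γ : F' →ₐ[E] F) (x : F) (x' : F')
    (hint : ∀ b ∈ chart R ({x} : Set F), ∃ p : Polynomial F', p.Monic ∧
      (∀ i, p.coeff i ∈ chart R ({x'} : Set F')) ∧ (p.map (γ : F' →+* F)).eval b = 0)
    {b : F} (hb : b ∈ chart R ({x} : Set F)) :
    S29.H395.normAlong γ b ∈ chart R ({x'} : Set F') := by
  apply isIntegral_chart_h323
  letI : Algebra F' F := AlgebraicCurve.algebraAlong γ
  letI : Algebra (chart R ({x'} : Set F')) F :=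
    ((γ : F' →+* F).comp ((chart R ({x'} : Set F')).subtype : _ →+* F')).toAlgebra
  haveI : @IsScalarTower (chart R ({x'} : Set F')) F' F Algebra.toSMul Algebra.toSMul
      Algebra.toSMul := IsScalarTower.of_algebraMap_eq (fun _ => rfl)
  have hbint : IsIntegral (chart R ({x'} : Set F')) b := by
    obtain ⟨p, hp, hcoef, hev⟩ := hint b hb
    have hl : p ∈ Polynomial.lifts ((chart R ({x'} : Set F')).subtype : _ →+* F') := by
      rw [Polynomial.lifts_iff_coeff_lifts]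
      intro n
      exact ⟨⟨p.coeff n, hcoef n⟩, rfl⟩
    obtain ⟨p', hp'map, -, hp'⟩ := Polynomial.lifts_and_natDegree_eq_and_monic hl hp
    refine ⟨p', hp', ?_⟩
    have h3 : Polynomial.eval₂ ((γ : F' →+* F).comp
        ((chart R ({x'} : Set F')).subtype : _ →+* F')) b p' =
        (p.map (γ : F' →+* F)).eval b := by
      rw [← hp'map, Polynomial.map_map, Polynomial.eval_map]
    exact h3.trans hev
  have key := Algebra.isIntegral_norm (R := chart R ({x'} : Set F')) (L := F) F' hbint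
  exact key

/-- Powers of nonunits are nonunits. -/
theorem pow_mem_nonunits_h323 (V : ValuationSubring F) {a : F} (ha : a ∈ V.nonunits) {n : ℕ}
    (hn : 0 < n) : a ^ n ∈ V.nonunits := by
  rw [ValuationSubring.mem_nonunits_iff] at ha ⊢
  rw [map_pow]
  exact pow_lt_one₀ (zero_le (a := V.valuation a)) ha hn.ne'

theorem neg_mem_nonunits_h323 (V : ValuationSubring F) {a : F} (ha : a ∈ V.nonunits) :
    -a ∈ V.nonunits := by
  rw [ValuationSubring.mem_nonunits_iff] at ha ⊢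
  rwa [Valuation.map_neg]

/-- **Radicial congruence on the chart** from the field `nr` (purely inseparable residue
extension) and integrality of norms. -/
theorem rad_of_nr_h323 (q : ℕ) (hq : 0 < q) (γ : F' →ₐ[E] F) (x : F) (x' : F')
    (Vr : ValuationSubring F)
    (hint : ∀ b ∈ chart R ({x} : Set F), ∃ p : Polynomial F', p.Monic ∧
      (∀ i, p.coeff i ∈ chart R ({x'} : Set F')) ∧ (p.map (γ : F' →+* F)).eval b = 0)
    (hBr : ∀ b ∈ chart R ({x} : Set F), b ∈ Vr)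
    (nr : ∀ y : F, UnitAt Vr y → γ (S29.H395.normAlong γ y) - y ^ q ∈ Vr.nonunits) :
    ∀ b ∈ chart R ({x} : Set F), ∃ b' ∈ chart R ({x'} : Set F'),
      b ^ q - γ b' ∈ Vr.nonunits := by
  intro b hb
  by_cases hbn : b ∈ Vr.nonunits
  · refine ⟨0, Subalgebra.zero_mem _, ?_⟩
    rw [map_zero, sub_zero]
    exact pow_mem_nonunits_h323 Vr hbn hq
  · have hb0 : b ≠ 0 := fun h => hbn (h ▸ zero_mem_nonunits_h323 Vr)
    have hinv : b⁻¹ ∈ Vr := by
      by_contra h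
      exact hbn ((mem_nonunits_iff_h323 Vr hb0).2 h)
    refine ⟨S29.H395.normAlong γ b, normAlong_mem_chart_h323 γ x x' hint hb, ?_⟩
    have := neg_mem_nonunits_h323 Vr (nr b ⟨hb0, hBr b hb, hinv⟩)
    rwa [neg_sub] at this

end Rad

section Fields

variable {R E F F' : Type*} [CommRing R] [Field E] [Algebra R E]
  [Field F] [Algebra E F] [Algebra R F] [IsScalarTower R E F]
  [Field F'] [Algebra E F'] [Algebra R F'] [IsScalarTower R E F']

theorem algHom_algebraMap_h323 (γ : F' →ₐ[E] F) (r : R) :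
    γ (algebraMap R F' r) = algebraMap R F r := by
  rw [IsScalarTower.algebraMap_apply R E F', IsScalarTower.algebraMap_apply R E F,
    AlgHom.commutes]

/-- **`unique_α`** (field of `Eng.TripleCtx`, in the form of `Mod3.PartUniq`). -/
theorem unique_alpha_h323 (w : R) (q : ℕ) (hq : 0 < q) (α : F' →ₐ[E] F) (x : F) (x' : F')
    (V₁ V₂ V₃ : ValuationSubring F) (V₁' V₂' : ValuationSubring F')
    (base₁ : ∀ r : R, algebraMap R F r ∈ V₁)
    (base₂ : ∀ r : R, algebraMap R F r ∈ V₂)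
    (base₃ : ∀ r : R, algebraMap R F r ∈ V₃)
    (x_unit₁ : UnitAt V₁ x) (x_unit₂ : UnitAt V₂ x) (x_unit₃ : UnitAt V₃ x)
    (unif₁ : UnifAt V₁ (algebraMap R F w)) (unif₃ : UnifAt V₃ (algebraMap R F w))
    (ram₂ : ∃ t : F, UnifAt V₂ t ∧ UnitAt V₂ (algebraMap R F w * (t ^ (q - 1))⁻¹))
    (qep_f : Qep3 w (chart R ({x} : Set F)) V₁ V₂ V₃)
    (comap_α₁ : V₁.comap (α : F' →+* F) = V₁')
    (comap_α₂ : V₂.comap (α : F' →+* F) = V₁')
    (comap_α₃ : V₃.comap (α : F' →+* F) = V₂')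
    (int_α : ∀ b ∈ chart R ({x} : Set F), ∃ p : Polynomial F', p.Monic ∧
      (∀ i, p.coeff i ∈ chart R ({x'} : Set F')) ∧ (p.map (α : F' →+* F)).eval b = 0)
    (nr_α₂ : ∀ y : F, UnitAt V₃ y → α (S29.H395.normAlong α y) - y ^ q ∈ V₃.nonunits)
    (hne : ∃ b' ∈ chart R ({x'} : Set F'), b' ∈ V₁'.nonunits ∧ b' ∉ V₂'.nonunits) :
    ∀ (hα : ∀ b ∈ chart R ({x'} : Set F'), α b ∈ chart R ({x} : Set F))
      (𝔪 𝔪' : Ideal (chart R ({x} : Set F))), 𝔪.IsMaximal → 𝔪'.IsMaximal →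
      IsTriple _ 𝔪 V₁ V₂ V₃ →
      (∀ (b' : F') (h : b' ∈ chart R ({x'} : Set F')),
        (⟨α b', hα b' h⟩ : chart R ({x} : Set F)) ∈ 𝔪 →
          (⟨α b', hα b' h⟩ : chart R ({x} : Set F)) ∈ 𝔪') → 𝔪' = 𝔪 := by
  intro hα 𝔪 𝔪' h𝔪 h𝔪' htriple H
  have hB₁ : ∀ b ∈ chart R ({x} : Set F), b ∈ V₁ := fun b hb =>
    chart_le_h323 V₁ base₁ x_unit₁.2.1 hb
  have hB₂ : ∀ b ∈ chart R ({x} : Set F), b ∈ V₂ := fun b hb =>
    chart_le_h323 V₂ base₂ x_unit₂.2.1 hb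
  have hB₃ : ∀ b ∈ chart R ({x} : Set F), b ∈ V₃ := fun b hb =>
    chart_le_h323 V₃ base₃ x_unit₃.2.1 hb
  exact unique_of_radicial_h323 w q hq α x x' V₁ V₂ V₃ V₂' V₁' hα int_α hB₃ comap_α₃ comap_α₁
    comap_α₂ hne unif₃.2.1 (algHom_algebraMap_h323 α w)
    (fun Q hQ hw => cover_h323 w q x V₁ V₂ V₃ hB₁ hB₂ hB₃ unif₁ unif₃ ram₂ qep_f Q hQ hw)
    (rad_of_nr_h323 q hq α x x' V₃ int_α hB₃ nr_α₂) 𝔪 𝔪' h𝔪 h𝔪' htriple.2.2 H

/-- **`unique_β`** (field of `Eng.TripleCtx`, in the form of `Mod3.PartUniq`). -/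
theorem unique_beta_h323 (w : R) (q : ℕ) (hq : 0 < q) (β : F' →ₐ[E] F) (x : F) (x' : F')
    (V₁ V₂ V₃ : ValuationSubring F) (V₁' V₂' : ValuationSubring F')
    (base₁ : ∀ r : R, algebraMap R F r ∈ V₁)
    (base₂ : ∀ r : R, algebraMap R F r ∈ V₂)
    (base₃ : ∀ r : R, algebraMap R F r ∈ V₃)
    (x_unit₁ : UnitAt V₁ x) (x_unit₂ : UnitAt V₂ x) (x_unit₃ : UnitAt V₃ x)
    (unif₁ : UnifAt V₁ (algebraMap R F w)) (unif₃ : UnifAt V₃ (algebraMap R F w))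
    (ram₂ : ∃ t : F, UnifAt V₂ t ∧ UnitAt V₂ (algebraMap R F w * (t ^ (q - 1))⁻¹))
    (qep_f : Qep3 w (chart R ({x} : Set F)) V₁ V₂ V₃)
    (comap_β₁ : V₁.comap (β : F' →+* F) = V₁')
    (comap_β₂ : V₂.comap (β : F' →+* F) = V₂')
    (comap_β₃ : V₃.comap (β : F' →+* F) = V₂')
    (int_β : ∀ b ∈ chart R ({x} : Set F), ∃ p : Polynomial F', p.Monic ∧
      (∀ i, p.coeff i ∈ chart R ({x'} : Set F')) ∧ (p.map (β : F' →+* F)).eval b = 0)
    (nr_β₂ : ∀ y : F, UnitAt V₁ y → β (S29.H395.normAlong β y) - y ^ q ∈ V₁.nonunits)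
    (hne : ∃ b' ∈ chart R ({x'} : Set F'), b' ∈ V₂'.nonunits ∧ b' ∉ V₁'.nonunits) :
    ∀ (hβ : ∀ b ∈ chart R ({x'} : Set F'), β b ∈ chart R ({x} : Set F))
      (𝔪 𝔪' : Ideal (chart R ({x} : Set F))), 𝔪.IsMaximal → 𝔪'.IsMaximal →
      IsTriple _ 𝔪 V₁ V₂ V₃ →
      (∀ (b' : F') (h : b' ∈ chart R ({x'} : Set F')),
        (⟨β b', hβ b' h⟩ : chart R ({x} : Set F)) ∈ 𝔪 →
          (⟨β b', hβ b' h⟩ : chart R ({x} : Set F)) ∈ 𝔪') → 𝔪' = 𝔪 := by
  intro hβ 𝔪 𝔪' h𝔪 h𝔪' htriple H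
  have hB₁ : ∀ b ∈ chart R ({x} : Set F), b ∈ V₁ := fun b hb =>
    chart_le_h323 V₁ base₁ x_unit₁.2.1 hb
  have hB₂ : ∀ b ∈ chart R ({x} : Set F), b ∈ V₂ := fun b hb =>
    chart_le_h323 V₂ base₂ x_unit₂.2.1 hb
  have hB₃ : ∀ b ∈ chart R ({x} : Set F), b ∈ V₃ := fun b hb =>
    chart_le_h323 V₃ base₃ x_unit₃.2.1 hb
  refine unique_of_radicial_h323 w q hq β x x' V₂ V₃ V₁ V₁' V₂' hβ int_β hB₁ comap_β₁ comap_β₂
    comap_β₃ hne unif₁.2.1 (algHom_algebraMap_h323 β w) (fun Q hQ hw => ?_)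
    (rad_of_nr_h323 q hq β x x' V₁ int_β hB₁ nr_β₂) 𝔪 𝔪' h𝔪 h𝔪' htriple.1 H
  rcases cover_h323 w q x V₁ V₂ V₃ hB₁ hB₂ hB₃ unif₁ unif₃ ram₂ qep_f Q hQ hw with h | h | h
  · exact Or.inr (Or.inr h)
  · exact Or.inl h
  · exact Or.inr (Or.inl h)

end Fields

end Fermat.Agent.S36.Mod3.H323

end
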