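import Fermat.Agent.S36.Mod3.Spec
import Fermat.Agent.S36.Mod3.H323.UniqFields
import Fermat.Agent.S36.Mod3.H323.Sep

/-!
# S36 / MOD3 — leaf UNIQ from the leaves SHEET, VAL, QEP, TABLE, CHART, NR (helper323)

`leafUniq_of : LeafSheet → LeafVal → LeafQep → LeafTable → LeafChart → LeafNR → LeafUniq`.

No further input: the radicial congruences on the chart come from `nr_α₂`, `nr_β₂` and the
integrality of norms, the cover `p₁ p₂^(q-1) p₃ ⊆ w B` from `Qep3`, the separating elements of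
level `M q` are the modular units of helper438 (`mu_package`, on main), and the going-down
theorem is Mathlib's.
-/

set_option autoImplicit false
set_option linter.style.haveILetI false
set_option linter.unusedSectionVars false
set_option synthInstance.maxHeartbeats 400000
set_option maxHeartbeats 1600000

noncomputable section

namespace Fermat.Agent.S36.Mod3.H323

open ModularCurve AlgebraicCurve
open Fermat.Agent.S18.H138 (chart)
open Fermat.Agent.S36.Eng
open Fermat.Agent.S36.Mod3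

/-- **UNIQ from the other leaves.** -/
theorem leafUniq_of (hSh : LeafSheet) (hVal : LeafVal) (hQep : LeafQep) (hTab : LeafTable)
    (hCh : LeafChart) (hNR : LeafNR) : LeafUniq := by
  intro P E M q _ _ _ w hStd V₁' V₂' V₁ V₂ V₃ W' W hObjs
  have sh := hSh P E M q w hStd V₁' V₂' V₁ V₂ V₃ W' W hObjs
  have val := hVal P E M q w hStd V₁' V₂' V₁ V₂ V₃ W' W hObjs
  have qep := hQep P E M q w hStd V₁' V₂' V₁ V₂ V₃ W' W hObjs
  have tab := hTab P E M q w hStd V₁' V₂' V₁ V₂ V₃ W' W hObjs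
  have ch := hCh P E M q w hStd V₁' V₂' V₁ V₂ V₃ W' W hObjs
  have nr := hNR P E M q w hStd V₁' V₂' V₁ V₂ V₃ W' W hObjs
  have hdvr : IsDiscreteValuationRing (A2.RE P E) := hStd.unram.1.dvr
  obtain ⟨hne₁, hne₂⟩ := sep_h323 P E M q hStd.q_prime hStd.lies_over hdvr V₁' V₂' W'
    hObjs.vinf' hObjs.fricke' hObjs.vzero'
  exact
    { unique_α := unique_alpha_h323 w q hStd.q_prime.pos (A2.Mod.αE E (M * q) q)
        (x3E E M q) (A2.Mod.xE E M q) V₁ V₂ V₃ V₁' V₂' sh.base₁ sh.base₂ sh.base₃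
        val.x_unit₁ val.x_unit₂ val.x_unit₃ val.unif₁ val.unif₃ val.ram₂ qep.qep_f
        tab.comap_α₁ tab.comap_α₂ tab.comap_α₃ ch.int_α nr.nr_α₂ hne₁
      unique_β := unique_beta_h323 w q hStd.q_prime.pos (A2.Mod.βE E (M * q) q)
        (x3E E M q) (A2.Mod.xE E M q) V₁ V₂ V₃ V₁' V₂' sh.base₁ sh.base₂ sh.base₃
        val.x_unit₁ val.x_unit₂ val.x_unit₃ val.unif₁ val.unif₃ val.ram₂ qep.qep_f
        tab.comap_β₁ tab.comap_β₂ tab.comap_β₃ ch.int_β nr.nr_β₂ hne₂ }

end Fermat.Agent.S36.Mod3.H323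

end
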